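import Mathlib.NumberTheory.Padics.Hensel
import Mathlib.NumberTheory.Padics.ProperSpace
import Mathlib.NumberTheory.Padics.RingHoms
import Mathlib.RingTheory.AlgebraicIndependent.Transcendental
import Mathlib.RingTheory.AlgebraicIndependent.Basic
import Mathlib.RingTheory.Localization.Integer
import Mathlib.RingTheory.Localization.FractionRing
import Mathlib.Algebra.MvPolynomial.Funext
import Mathlib.Algebra.MvPolynomial.Cardinal
import Mathlib.Algebra.Polynomial.Cardinal
import Mathlib.FieldTheory.PrimitiveElement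
import Mathlib.Topology.Baire.Lemmas
import Mathlib.Topology.Baire.CompleteMetrizable
import Mathlib.Data.Nat.Prime.Infinite

/-!
# Cassels' embedding theorem

Finitely many elements of a field of characteristic zero lie in a subfield with an embedding into
`ℚ_p` for some odd prime `p`, under which all of them are `p`-adic integers: a transcendence basis
goes to independent numbers congruent to integers at which a common denominator is not `0`, and a
primitive element over it to a root given by Hensel's lemma at a prime dividing a value of its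
polynomial.
-/

set_option autoImplicit false
set_option linter.style.haveILetI false

noncomputable section

open Polynomial
open scoped Topology

namespace FA.SkolemMahlerLech

/-- **Schur**: a non-constant integral polynomial has roots modulo a prime not dividing `m`. -/
theorem exists_prime_dvd_eval {g : ℤ[X]} (hg : 0 < g.natDegree) {m : ℕ} (hm : m ≠ 0) :
    ∃ p : ℕ, p.Prime ∧ ¬ p ∣ m ∧ ∃ n : ℤ, (p : ℤ) ∣ g.eval n := by
  rcases eq_or_ne (g.coeff 0) 0 with h0 | h0
  · obtain ⟨p, hp, hpp⟩ := Nat.exists_infinite_primes (m + 1)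
    refine ⟨p, hpp, fun h => absurd (Nat.le_of_dvd (Nat.pos_of_ne_zero hm) h) (by omega), 0, ?_⟩
    rw [← coeff_zero_eq_eval_zero, h0]
    exact dvd_zero _
  set c := g.coeff 0
  have hfin : {n : ℤ | g.eval n = c ∨ g.eval n = -c}.Finite := by
    have h1 : ∀ d : ℤ, {n : ℤ | g.eval n = d}.Finite := fun d => by
      have hne : g - C d ≠ 0 := fun h => by
        rw [sub_eq_zero.1 h, natDegree_C] at hg
        exact lt_irrefl 0 hg
      refine (g - C d).roots.toFinset.finite_toSet.subset fun n hn => ?_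
      exact Finset.mem_coe.2 (Multiset.mem_toFinset.2 ((mem_roots hne).2 (by
        simp [IsRoot, show eval n g = d from hn])))
    exact ((h1 c).union (h1 (-c))).subset fun n hn => hn
  obtain ⟨t, ht⟩ : ∃ t : ℤ, c * m * t ∉ {n : ℤ | g.eval n = c ∨ g.eval n = -c} := by
    by_contra hall
    push Not at hall
    refine (Set.infinite_range_of_injective (f := fun t : ℤ => c * m * t)
      (mul_right_injective₀ (mul_ne_zero h0 (Int.natCast_ne_zero.2 hm)))) (hfin.subset ?_)
    rintro _ ⟨t, rfl⟩
    exact hall t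
  set w := 1 + (m : ℤ) * t * g.divX.eval (c * m * t) with hw
  have hgw : g.eval (c * m * t) = c * w := by
    conv_lhs => rw [← X_mul_divX_add g]
    rw [eval_add, eval_mul, eval_X, eval_C, hw]
    ring
  simp only [Set.mem_ofPred_eq, hgw, not_or] at ht
  obtain ⟨p, hp, hpw⟩ := Nat.exists_prime_and_dvd (n := w.natAbs) fun h => by
    rcases Int.natAbs_eq w with e | e <;> rw [e, h] at ht
    · exact ht.1 (by simp)
    · exact ht.2 (by simp)
  refine ⟨p, hp, fun hpm => hp.ne_one ?_, c * m * t, ?_⟩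
  · have h1 : (p : ℤ) ∣ w := Int.natCast_dvd.2 hpw
    have h2 : (p : ℤ) ∣ (m : ℤ) * t * g.divX.eval (c * m * t) :=
      ((Int.natCast_dvd_natCast.2 hpm).mul_right _).mul_right _
    have h3 : (p : ℤ) ∣ 1 := by
      have := dvd_sub h1 h2
      rwa [hw, add_sub_cancel_right] at this
    exact Nat.eq_one_of_dvd_one (Int.natCast_dvd_natCast.1 (by exact_mod_cast h3))
  · rw [hgw]
    exact dvd_mul_of_dvd_right (Int.natCast_dvd.2 hpw) c

variable {p : ℕ} [hp : Fact p.Prime]

theorem neBot_compl (x : ℤ_[p]) : (𝓝[≠] x).NeBot := by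
  rw [← mem_closure_iff_nhdsWithin_neBot]
  refine Metric.mem_closure_iff.2 fun ε hε => ?_
  obtain ⟨n, hn⟩ := PadicInt.exists_pow_neg_lt p hε
  refine ⟨x + (p : ℤ_[p]) ^ n, fun h => pow_ne_zero n (Nat.cast_ne_zero.2 hp.out.ne_zero)
    (add_eq_left.1 h : (p : ℤ_[p]) ^ n = 0), ?_⟩
  rw [dist_eq_norm, sub_add_cancel_left, norm_neg, PadicInt.norm_p_pow]
  exact hn

/-- A countable set misses some `p`-adic integer. -/
theorem exists_notMem {S : Set ℤ_[p]} (hS : S.Countable) : ∃ z, z ∉ S := by
  haveI := fun x : ℤ_[p] => neBot_compl x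
  have hd : Dense (⋂₀ ((fun x => ({x} : Set ℤ_[p])ᶜ) '' S)) :=
    dense_sInter_of_isOpen (fun _ ⟨x, _, e⟩ => e ▸ isOpen_compl_singleton) (hS.image _)
      (fun _ ⟨x, _, e⟩ => e ▸ dense_compl_singleton x)
  obtain ⟨z, hz⟩ := hd.nonempty
  exact ⟨z, fun h => hz _ ⟨z, h, rfl⟩ rfl⟩

theorem countable_isAlgebraic {A : Type*} [CommRing A] [IsDomain A] {R : Type*} [CommRing R]
    [IsDomain R] [Countable R] [Algebra R A] [FaithfulSMul R A] :
    {x : A | IsAlgebraic R x}.Countable := by
  classical
  haveI : Countable R[X] := Cardinal.mk_le_aleph0_iff.1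
    (Polynomial.cardinalMk_le_max.trans (max_le Cardinal.mk_le_aleph0 le_rfl))
  refine (Set.countable_iUnion fun f : R[X] => (f.rootSet A).toFinite.countable).mono ?_
  rintro x ⟨f, hf, hfx⟩
  exact Set.mem_iUnion.2 ⟨f, (mem_rootSet_of_ne hf).2 hfx⟩

/-- Independent `p`-adic numbers congruent to given integers. -/
theorem exists_independent {ι : Type*} [Finite ι] (a : ι → ℤ) :
    ∃ τ : ι → ℤ_[p], (∀ i, (p : ℤ_[p]) ∣ τ i - a i) ∧
      AlgebraicIndependent ℤ fun i => (τ i : ℚ_[p]) := by
  classical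
  haveI := Fintype.ofFinite ι
  suffices h : ∀ s : Finset ι, ∃ τ : ι → ℤ_[p], (∀ i, (p : ℤ_[p]) ∣ τ i - a i) ∧
      AlgebraicIndepOn ℤ (fun i => (τ i : ℚ_[p])) (s : Set ι) by
    obtain ⟨τ, h1, h2⟩ := h Finset.univ
    exact ⟨τ, h1, h2.comp (fun i => ⟨i, Finset.mem_coe.2 (Finset.mem_univ i)⟩)
      fun i j h => congrArg Subtype.val h⟩
  intro s
  induction s using Finset.induction with
  | empty =>
    refine ⟨fun i => a i, fun i => by simp, ?_⟩
    rw [Finset.coe_empty]
    exact algebraicIndependent_empty_type_iff.2 (algebraMap ℤ ℚ_[p]).injective_int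
  | @insert i s hi ih =>
    obtain ⟨τ, h1, h2⟩ := ih
    set B := Algebra.adjoin ℤ ((fun j => (τ j : ℚ_[p])) '' (s : Set ι)) with hB
    haveI : Countable B := by
      have : B = (MvPolynomial.aeval (R := ℤ) fun j : (s : Set ι) => (τ j : ℚ_[p])).range := by
        rw [hB, Set.image_eq_range, Algebra.adjoin_range_eq_range_aeval]
      haveI hcnt : Countable (MvPolynomial ((s : Set ι) : Type _) ℤ) :=
        Cardinal.mk_le_aleph0_iff.1 (MvPolynomial.cardinalMk_le_max_lift.trans
          (max_le (max_le (by simp) (by simp)) le_rfl))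
      rw [this]
      exact (AlgHom.rangeRestrict_surjective _).countable
    set f : ℤ_[p] → ℚ_[p] := fun z => ((a i : ℤ_[p]) + (p : ℤ_[p]) * z : ℤ_[p])
    have hf : Function.Injective f := fun x y h =>
      mul_left_cancel₀ (Nat.cast_ne_zero.2 hp.out.ne_zero)
        (add_left_cancel (Subtype.val_injective h))
    obtain ⟨z, hz⟩ := exists_notMem (p := p)
      ((countable_isAlgebraic (A := ℚ_[p]) (R := B)).preimage hf)
    set τ' := Function.update τ i ((a i : ℤ_[p]) + (p : ℤ_[p]) * z)
    have hne : ∀ j ∈ (s : Set ι), τ' j = τ j := fun j hj =>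
      Function.update_of_ne (fun e => hi (by rw [← e]; exact hj)) _ _
    have himg : (fun j => (τ' j : ℚ_[p])) '' (s : Set ι) =
        (fun j => (τ j : ℚ_[p])) '' (s : Set ι) :=
      Set.image_congr fun j hj => by rw [hne j hj]
    refine ⟨τ', fun j => ?_, ?_⟩
    · rcases eq_or_ne j i with rfl | hj
      · simp [τ']
      · simp [τ', Function.update_of_ne hj, h1 j]
    · rw [Finset.coe_insert]
      refine AlgebraicIndepOn.insert ?_ ?_
      · have : (fun j : (s : Set ι) => (τ' j : ℚ_[p])) = fun j : (s : Set ι) => (τ j : ℚ_[p]) :=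
          funext fun j => by rw [hne j j.2]
        show AlgebraicIndependent ℤ fun j : (s : Set ι) => (τ' j : ℚ_[p])
        rw [this]
        exact h2
      · rw [himg]
        simpa [τ', Transcendental, f] using hz

theorem integral_poly {Fr : Type*} [Field Fr] (ψ : Fr →+* ℚ_[p]) {q : Fr[X]}
    (h : ∀ i, ‖ψ (q.coeff i)‖ ≤ 1) :
    ∃ q0 : ℤ_[p][X], q0.map PadicInt.Coe.ringHom = q.map ψ :=
  mem_lifts _ |>.1 ((lifts_iff_coeff_lifts _).2 fun i =>
    ⟨⟨ψ (q.coeff i), h i⟩, by rw [coeff_map]; rfl⟩)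

/-- **Cassels' embedding theorem.** -/
theorem exists_padic_embedding {K : Type*} [Field K] [CharZero K] (S : Finset K) :
    ∃ (p : ℕ) (_ : Fact p.Prime), p ≠ 2 ∧ ∃ (L : Subfield K) (φ : L →+* ℚ_[p]),
      ∀ x ∈ S, ∃ h : x ∈ L, ‖φ ⟨x, h⟩‖ ≤ 1 := by
  classical
  obtain ⟨T, -, ⟨hT, hTS⟩, hmax⟩ := exists_maximal_algebraicIndependent (R := ℤ) (∅ : Set K)
    (S : Set K) (Set.empty_subset _)
    (algebraicIndependent_empty_type_iff.2 (algebraMap ℤ K).injective_int)
  haveI : Finite T := (S.finite_toSet.subset hTS).to_subtype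
  haveI := Fintype.ofFinite T
  set ι := T
  set x : ι → K := Subtype.val
  have hx : AlgebraicIndependent ℤ x := hT
  set Fr := FractionRing (MvPolynomial ι ℤ)
  letI : Algebra Fr K := (IsFractionRing.lift (K := Fr)
    (g := (MvPolynomial.aeval x : MvPolynomial ι ℤ →ₐ[ℤ] K).toRingHom) hx).toAlgebra
  have hFr : ∀ q : MvPolynomial ι ℤ,
      algebraMap Fr K (algebraMap _ Fr q) = MvPolynomial.aeval x q := fun q =>
    IsFractionRing.lift_algebraMap _ q
  -- all of `S` is algebraic
  have halg : ∀ s ∈ S, IsAlgebraic Fr s := fun s hs => by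
    by_cases hsT : s ∈ T
    · have := isAlgebraic_algebraMap (R := Fr) (A := K)
        (algebraMap _ Fr (MvPolynomial.X (⟨s, hsT⟩ : ι) : MvPolynomial ι ℤ))
      rwa [hFr, MvPolynomial.aeval_X] at this
    have h : ¬ AlgebraicIndepOn ℤ id (insert s T) := fun h => hsT
      (hmax ⟨h, Set.insert_subset hs hTS⟩ (Set.subset_insert _ _) (Set.mem_insert _ _))
    rw [AlgebraicIndepOn.insert_iff hsT, not_and] at h
    obtain ⟨g, hg0, hgs⟩ := not_not.1 (h hT)
    set π := (MvPolynomial.aeval x : MvPolynomial ι ℤ →ₐ[ℤ] K)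
    have hlift : g.map (algebraMap _ K) ∈ Polynomial.lifts π.toRingHom :=
      (lifts_iff_coeff_lifts _).2 fun i => by
        have := (g.coeff i).2
        have e : Algebra.adjoin ℤ (id '' T) = π.range := by
          rw [Set.image_id, ← Algebra.adjoin_range_eq_range_aeval, Subtype.range_coe]
        obtain ⟨q, hq⟩ := e.le this
        exact ⟨q, by rw [coeff_map]; exact hq⟩
    obtain ⟨G, hG⟩ := (mem_lifts _).1 hlift
    refine ⟨G.map (algebraMap _ Fr), fun h0 => hg0 ?_, ?_⟩
    · have : G = 0 := (map_injective _ (IsFractionRing.injective (MvPolynomial ι ℤ) Fr)).eq_iff'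
        (Polynomial.map_zero _) |>.1 h0
      rw [this, Polynomial.map_zero] at hG
      exact (map_injective (algebraMap _ K) Subtype.val_injective).eq_iff'
        (Polynomial.map_zero _) |>.1 hG.symm
    · rw [aeval_def, eval₂_map, show (algebraMap Fr K).comp (algebraMap _ Fr) = π.toRingHom from
        RingHom.ext hFr, ← eval_map, hG, eval_map, ← aeval_def]
      exact hgs
  set L := IntermediateField.adjoin Fr (S : Set K) with hL
  haveI : CharZero Fr :=
    charZero_of_injective_algebraMap (IsFractionRing.injective (MvPolynomial ι ℤ) Fr)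
  haveI : FiniteDimensional Fr L :=
    IntermediateField.finiteDimensional_adjoin fun s hs => (halg s hs).isIntegral
  obtain ⟨θ, hθ⟩ := Field.exists_primitive_element Fr L
  have hint : IsIntegral Fr θ := IsIntegral.of_finite Fr θ
  have hgen : ∀ y : L, ∃ g : Fr[X], aeval θ g = y := fun y => by
    have : y ∈ IntermediateField.adjoin Fr {θ} := hθ ▸ IntermediateField.mem_top
    rw [← IntermediateField.mem_toSubalgebra,
      IntermediateField.adjoin_simple_toSubalgebra_of_isAlgebraic hint.isAlgebraic,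
      Algebra.adjoin_singleton_eq_range_aeval] at this
    exact this
  choose g hg using hgen
  set f := minpoly Fr θ
  have hfm : f.Monic := minpoly.monic hint
  have hd : 0 < f.natDegree := minpoly.natDegree_pos hint
  obtain ⟨u, v, huv⟩ : IsCoprime f (derivative f) := (minpoly.irreducible hint).separable
  -- the finitely many coefficients and a common denominator
  set E : Finset Fr := f.coeffs ∪ u.coeffs ∪ v.coeffs ∪
    S.attach.biUnion fun s => (g ⟨s.1, IntermediateField.subset_adjoin _ _ s.2⟩).coeffs with hE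
  obtain ⟨⟨D, hD⟩, hDE⟩ := IsLocalization.exist_integer_multiples
    (nonZeroDivisors (MvPolynomial ι ℤ)) E id
  have hD0 : D ≠ 0 := nonZeroDivisors.ne_zero hD
  obtain ⟨a, ha⟩ : ∃ a : ι → ℤ, MvPolynomial.eval a D ≠ 0 := by
    by_contra h
    push Not at h
    exact hD0 (MvPolynomial.funext fun a => by simp [h a])
  -- the polynomial over the integers and the prime
  obtain ⟨G, hG⟩ : ∃ G : (MvPolynomial ι ℤ)[X],
      G.map (algebraMap _ Fr) = C (algebraMap _ Fr D) * f :=
    (mem_lifts _).1 ((lifts_iff_coeff_lifts _).2 fun i => by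
      rw [coeff_C_mul]
      by_cases hz : f.coeff i = 0
      · exact ⟨0, by simp [hz]⟩
      obtain ⟨q, hq⟩ := hDE (f.coeff i) (by
        rw [hE]
        simp only [Finset.mem_union]
        exact Or.inl (Or.inl (Or.inl (coeff_mem_coeffs hz))))
      exact ⟨q, hq.trans (Algebra.smul_def _ _)⟩)
  have hGlead : G.coeff f.natDegree = D := IsFractionRing.injective (MvPolynomial ι ℤ) Fr (by
    rw [← coeff_map, hG, coeff_C_mul, hfm.coeff_natDegree, mul_one])
  set G0 := G.map (MvPolynomial.eval a)
  have hG0 : 0 < G0.natDegree := hd.trans_le (le_natDegree_of_ne_zero (by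
    rw [coeff_map, hGlead]; exact ha))
  obtain ⟨p, hpp, hpm, n, hn⟩ := exists_prime_dvd_eval hG0
    (mul_ne_zero two_ne_zero (Int.natAbs_ne_zero.2 ha))
  haveI : Fact p.Prime := ⟨hpp⟩
  have hp2 : p ≠ 2 := fun e => hpm (e ▸ dvd_mul_right _ _)
  obtain ⟨τ, hτa, hτ⟩ := exists_independent (p := p) a
  set ev : MvPolynomial ι ℤ →+* ℤ_[p] := (MvPolynomial.aeval τ).toRingHom with hev
  have hred : ∀ q, PadicInt.toZMod (ev q) = ((MvPolynomial.eval a q : ℤ) : ZMod p) := by
    intro q
    have : (PadicInt.toZMod (p := p)).comp ev =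
        (Int.castRingHom (ZMod p)).comp (MvPolynomial.eval a) := by
      refine MvPolynomial.ringHom_ext (fun r => by simp [hev]) fun i => ?_
      obtain ⟨z, hz⟩ := hτa i
      simp [hev, sub_eq_iff_eq_add.1 hz]
    exact congrArg (fun F : MvPolynomial ι ℤ →+* ZMod p => F q) this
  set evQ := PadicInt.Coe.ringHom.comp ev
  have hevQ : Function.Injective evQ := by
    have : evQ = (MvPolynomial.aeval fun i => (τ i : ℚ_[p])).toRingHom :=
      MvPolynomial.ringHom_ext (fun r => by simp [evQ, hev]) fun i => by simp [evQ, hev]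
    rw [this]
    exact hτ
  set ψ : Fr →+* ℚ_[p] := IsFractionRing.lift (K := Fr) hevQ
  have hψ : ∀ q, ψ (algebraMap _ Fr q) = (ev q : ℚ_[p]) := fun q =>
    IsFractionRing.lift_algebraMap hevQ q
  have hunit : IsUnit (ev D) := by
    rw [← not_not (a := IsUnit _), ← mem_nonunits_iff, ← IsLocalRing.mem_maximalIdeal,
      ← PadicInt.ker_toZMod, RingHom.mem_ker, hred, ZMod.intCast_zmod_eq_zero_iff_dvd,
      Int.natCast_dvd]
    exact fun h => hpm (h.mul_left 2)
  have hnorm : ∀ e ∈ E, ‖ψ e‖ ≤ 1 := fun e he => by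
    obtain ⟨q, hq⟩ := hDE e he
    obtain ⟨w, hw⟩ := hunit.exists_left_inv
    have h1 : (ev q : ℚ_[p]) = (ev D : ℚ_[p]) * ψ e := by
      rw [← hψ, hq]
      exact (congrArg ψ (Algebra.smul_def D e)).trans (by rw [map_mul, hψ])
    have h2 : ψ e = ((w * ev q : ℤ_[p]) : ℚ_[p]) := by
      rw [PadicInt.coe_mul, h1, ← mul_assoc, ← PadicInt.coe_mul, hw, PadicInt.coe_one, one_mul]
    rw [h2]
    exact (w * ev q).2
  have hcoeff : ∀ q : Fr[X], q.coeffs ⊆ E → ∀ i, ‖ψ (q.coeff i)‖ ≤ 1 := fun q hq i => by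
    by_cases hz : q.coeff i = 0
    · rw [hz, map_zero, norm_zero]; exact zero_le_one
    · exact hnorm _ (hq (coeff_mem_coeffs hz))
  obtain ⟨f0, hf0⟩ := integral_poly ψ (hcoeff f (by
    intro e he; rw [hE]; simp only [Finset.mem_union]; exact Or.inl (Or.inl (Or.inl he))))
  obtain ⟨u0, hu0⟩ := integral_poly ψ (hcoeff u (by
    intro e he; rw [hE]; simp only [Finset.mem_union]; exact Or.inl (Or.inl (Or.inr he))))
  obtain ⟨v0, hv0⟩ := integral_poly ψ (hcoeff v (by
    intro e he; rw [hE]; simp only [Finset.mem_union]; exact Or.inl (Or.inr he)))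
  have hinj : Function.Injective (Polynomial.map (PadicInt.Coe.ringHom (p := p))) :=
    map_injective _ Subtype.val_injective
  have hbez : u0 * f0 + v0 * derivative f0 = 1 := hinj (by
    rw [Polynomial.map_add, Polynomial.map_mul, Polynomial.map_mul, ← derivative_map, hf0, hu0,
      hv0, derivative_map, ← Polynomial.map_mul, ← Polynomial.map_mul, ← Polynomial.map_add, huv,
      Polynomial.map_one, Polynomial.map_one])
  have hGf : G.map ev = C (ev D) * f0 := hinj (by
    rw [Polynomial.map_mul, map_C, hf0, Polynomial.map_map,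
      show (PadicInt.Coe.ringHom).comp ev = ψ.comp (algebraMap _ Fr) from
        RingHom.ext fun q => (hψ q).symm,
      ← Polynomial.map_map, hG, Polynomial.map_mul, map_C, hψ]
    rfl)
  set y : ℤ_[p] := (n : ℤ_[p])
  have hred0 : PadicInt.toZMod (f0.eval y) = 0 := by
    have h1 := congrArg (fun q => PadicInt.toZMod (q.eval y)) hGf
    simp only [eval_mul, eval_C, map_mul] at h1
    have h2 : PadicInt.toZMod ((G.map ev).eval y) = 0 := by
      rw [← Polynomial.eval_map_apply, Polynomial.map_map,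
        show (PadicInt.toZMod (p := p)).comp ev =
          (Int.castRingHom (ZMod p)).comp (MvPolynomial.eval a) from RingHom.ext hred,
        ← Polynomial.map_map, map_intCast, ← eq_intCast (Int.castRingHom (ZMod p)) n,
        Polynomial.eval_map_apply, eq_intCast, (ZMod.intCast_zmod_eq_zero_iff_dvd _ _).2 hn]
    rw [h2] at h1
    refine (mul_eq_zero.1 h1.symm).resolve_left fun h => ?_
    rw [← RingHom.mem_ker, PadicInt.ker_toZMod] at h
    exact h hunit
  have hlt : ‖f0.eval y‖ < 1 := by
    rw [← PadicInt.mem_nonunits, ← IsLocalRing.mem_maximalIdeal, ← PadicInt.ker_toZMod]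
    exact hred0
  have hder : ‖(derivative f0).eval y‖ = 1 := by
    refine PadicInt.isUnit_iff.1 (not_not.1 fun h => ?_)
    rw [← mem_nonunits_iff, ← IsLocalRing.mem_maximalIdeal, ← PadicInt.ker_toZMod,
      RingHom.mem_ker] at h
    have h1 := congrArg (fun q => PadicInt.toZMod (q.eval y)) hbez
    simp only [eval_add, eval_mul, map_add, map_mul, hred0, h, mul_zero, add_zero, eval_one,
      map_one, zero_ne_one] at h1
  obtain ⟨η, hη, -⟩ := hensels_lemma (F := f0) (a := y) (by
    simp only [coe_aeval_eq_eval]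
    rwa [hder, one_pow])
  rw [coe_aeval_eq_eval] at hη
  letI : Algebra Fr ℚ_[p] := ψ.toAlgebra
  have hroot : aeval (η : ℚ_[p]) f = 0 := by
    rw [aeval_def, eval₂_eq_eval_map]
    show (f.map ψ).eval (η : ℚ_[p]) = 0
    rw [← hf0]
    exact (Polynomial.eval_map_apply PadicInt.Coe.ringHom η).trans (by rw [hη, map_zero])
  set B := (IntermediateField.adjoin.powerBasis hint).map
    ((IntermediateField.equivOfEq hθ).trans IntermediateField.topEquiv) with hB
  have hBgen : B.gen = θ := rfl
  set Φ : L →ₐ[Fr] ℚ_[p] := B.lift (η : ℚ_[p]) (by rw [hBgen]; exact hroot)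
  refine ⟨p, inferInstance, hp2, L.toSubfield, Φ.toRingHom, fun s hs => ?_⟩
  set s' : L := ⟨s, IntermediateField.subset_adjoin _ _ hs⟩
  refine ⟨s'.2, ?_⟩
  obtain ⟨g0, hg0⟩ := integral_poly ψ (hcoeff (g s') (by
    intro e he
    rw [hE]
    simp only [Finset.mem_union]
    exact Or.inr (Finset.mem_biUnion.2 ⟨⟨s, hs⟩, Finset.mem_attach _ _, he⟩)))
  show ‖Φ s'‖ ≤ 1
  rw [← hg s', ← hBgen, PowerBasis.lift_aeval, aeval_def, eval₂_eq_eval_map]
  show ‖((g s').map ψ).eval (η : ℚ_[p])‖ ≤ 1
  rw [← hg0]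
  exact (Polynomial.eval_map_apply PadicInt.Coe.ringHom η).symm ▸ (g0.eval η).2

end FA.SkolemMahlerLech
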