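import Mathlib.NumberTheory.Padics.PadicIntegers
import Mathlib.NumberTheory.Padics.RingHoms
import Mathlib.NumberTheory.Padics.PadicVal.Basic
import Mathlib.RingTheory.Polynomial.Pochhammer
import Mathlib.Algebra.Polynomial.Div
import Mathlib.Algebra.Polynomial.Roots
import Mathlib.Data.Nat.Choose.Cast
import Mathlib.Data.Nat.Choose.Sum
import Mathlib.LinearAlgebra.Matrix.NonsingularInverse
import Mathlib.LinearAlgebra.Lagrange

/-!
# Zeros of `m ↦ ∑ binom(m, i) pⁱ bᵢ` and of `m ↦ c Aᵐ v`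

For an odd prime `p` and `p`-adic integers `bᵢ`, not all `0`, the sequence `∑ᵢ binom(m, i) pⁱ bᵢ`
has finitely many zeros: with `aᵢ = pⁱ bᵢ / i!` and `N` the last index at which `|aᵢ|` is greatest,
the remainder of `∑ aᵢ X (X - 1) ⋯ (X - i + 1)` by a product of `N + 1` linear factors of zeros
would have `X ^ N`-coefficient of absolute value `|a_N|`. Hence for a matrix `A` over `ℤ_p`
invertible modulo `p` the zeros of `n ↦ c Aⁿ v` are periodic from some point on.
-/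

set_option autoImplicit false
set_option linter.style.haveILetI false

noncomputable section

open Polynomial Finset Matrix

namespace FA.SkolemMahlerLech

variable {p : ℕ} [hp : Fact p.Prime]

/-- The remainder of `X (X - 1) ⋯ (X - i + 1)` by the product of the `X - m`, `m ∈ Z`. -/
def remPoch (Z : Finset ℕ) (i : ℕ) : ℤ[X] :=
  descPochhammer ℤ i %ₘ ∏ m ∈ Z, (X - C (m : ℤ))

theorem eval_remPoch {Z : Finset ℕ} {m : ℕ} (hm : m ∈ Z) (i : ℕ) :
    (remPoch Z i).eval (m : ℤ) = (descPochhammer ℤ i).eval (m : ℤ) := by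
  have h := congrArg (eval (m : ℤ))
    (modByMonic_add_div (descPochhammer ℤ i) (∏ m ∈ Z, (X - C (m : ℤ))))
  have hz : ∏ j ∈ Z, eval (m : ℤ) (X - C (j : ℤ)) = 0 :=
    Finset.prod_eq_zero hm (by rw [eval_sub, eval_X, eval_C, sub_self])
  rw [eval_add, eval_mul, eval_prod,
    hz, zero_mul, add_zero] at h
  exact h

theorem degree_remPoch_lt (Z : Finset ℕ) (i : ℕ) : (remPoch Z i).degree < (Z.card : ℕ) := by
  refine (degree_modByMonic_lt _ (monic_prod_of_monic _ _ fun m _ => monic_X_sub_C _)).trans_eq ?_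
  rw [degree_prod, Finset.sum_congr rfl fun m _ => degree_X_sub_C (R := ℤ) _]
  simp

theorem remPoch_of_lt {Z : Finset ℕ} {i : ℕ} (h : i < Z.card) :
    remPoch Z i = descPochhammer ℤ i := by
  refine (modByMonic_eq_self_iff (monic_prod_of_monic _ _ fun m _ => monic_X_sub_C _)).2 ?_
  rw [degree_eq_natDegree (monic_descPochhammer ℤ i).ne_zero, descPochhammer_natDegree,
    degree_prod, Finset.sum_congr rfl fun m _ => degree_X_sub_C (R := ℤ) _]
  simpa using h

/-- `2 v_p(i!) ≤ i` for odd `p`. -/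
theorem two_mul_padicValNat_factorial_le (hp2 : p ≠ 2) (i : ℕ) :
    2 * padicValNat p i.factorial ≤ i := by
  have h := sub_one_mul_padicValNat_factorial (p := p) i
  have h3 : 2 ≤ p - 1 := by
    have := hp.out.two_le
    omega
  calc 2 * padicValNat p i.factorial ≤ (p - 1) * padicValNat p i.factorial :=
        Nat.mul_le_mul_right _ h3
    _ ≤ i := by rw [h]; exact Nat.sub_le _ _

/-- `|pⁱ b / i!| ≤ p ^ (-⌈i / 2⌉)`. -/
theorem norm_coeff_le (hp2 : p ≠ 2) (b : ℤ_[p]) {i K : ℕ} (hK : 2 * K ≤ i) :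
    ‖(p : ℚ_[p]) ^ i * (b : ℚ_[p]) / (i.factorial : ℚ_[p])‖ ≤ (p : ℝ)⁻¹ ^ K := by
  set v := padicValNat p i.factorial
  have hv : 2 * v ≤ i := two_mul_padicValNat_factorial_le hp2 i
  have hf : ‖(i.factorial : ℚ_[p])‖ = (p : ℝ)⁻¹ ^ v := by
    rw [Padic.norm_eq_zpow_neg_valuation (Nat.cast_ne_zero.2 i.factorial_ne_zero),
      Padic.valuation_natCast, zpow_neg, zpow_natCast, inv_pow]
  have hp0 : (0 : ℝ) < (p : ℝ)⁻¹ := inv_pos.2 (Nat.cast_pos.2 hp.out.pos)
  have hp1 : (p : ℝ)⁻¹ ≤ 1 := inv_le_one_of_one_le₀ (Nat.one_le_cast.2 hp.out.one_le)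
  rw [norm_div, norm_mul, norm_pow, Padic.norm_p, hf, div_le_iff₀ (pow_pos hp0 v), ← pow_add]
  exact (mul_le_of_le_one_right (pow_pos hp0 i).le b.2).trans
    (pow_le_pow_of_le_one hp0.le hp1 (by omega))

theorem norm_intCast_le (k : ℤ) : ‖(k : ℚ_[p])‖ ≤ 1 := by
  simpa using ((k : ℤ_[p])).2

/-- **Finitely many zeros**, or all coefficients vanish. -/
theorem finite_zeros (hp2 : p ≠ 2) {b : ℕ → ℤ_[p]} {u : ℕ → ℤ_[p]}
    (hu : ∀ m, u m = ∑ i ∈ range (m + 1), (m.choose i : ℤ_[p]) * ((p : ℤ_[p]) ^ i * b i))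
    (hb : ∃ i, b i ≠ 0) : {m | u m = 0}.Finite := by
  classical
  set a : ℕ → ℚ_[p] := fun i => (p : ℚ_[p]) ^ i * (b i : ℚ_[p]) / (i.factorial : ℚ_[p]) with ha
  obtain ⟨i0, hi0⟩ := hb
  have ha0 : a i0 ≠ 0 := by
    refine div_ne_zero (mul_ne_zero (pow_ne_zero _ ?_) ?_) (Nat.cast_ne_zero.2 i0.factorial_ne_zero)
    · exact_mod_cast hp.out.ne_zero
    · simpa using hi0
  obtain ⟨K, hK⟩ : ∃ K : ℕ, (p : ℝ)⁻¹ ^ K < ‖a i0‖ :=
    exists_pow_lt_of_lt_one (norm_pos_iff.2 ha0)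
      (inv_lt_one_of_one_lt₀ (Nat.one_lt_cast.2 hp.out.one_lt))
  have hbig : ∀ i, ‖a i0‖ ≤ ‖a i‖ → i ∈ range (2 * K) := fun i hi => mem_range.2 <| by
    by_contra h
    exact absurd ((hi.trans (norm_coeff_le hp2 (b i) (not_lt.1 h))).trans_lt hK) (lt_irrefl _)
  obtain ⟨j, hj, hjmax⟩ := (range (2 * K)).exists_max_image (fun i => ‖a i‖)
    ⟨i0, hbig i0 le_rfl⟩
  have hjall : ∀ i, ‖a i‖ ≤ ‖a j‖ := fun i => by
    rcases le_total ‖a i‖ ‖a i0‖ with h | h
    · exact h.trans (hjmax i0 (hbig i0 le_rfl))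
    · exact hjmax i (hbig i h)
  set N := ((range (2 * K)).filter fun i => ‖a i‖ = ‖a j‖).max' ⟨j, mem_filter.2 ⟨hj, rfl⟩⟩
  have hN := mem_filter.1 (((range (2 * K)).filter fun i => ‖a i‖ = ‖a j‖).max'_mem
    ⟨j, mem_filter.2 ⟨hj, rfl⟩⟩)
  have hlast : ∀ i, N < i → ‖a i‖ < ‖a N‖ := fun i hi => by
    rw [hN.2]
    refine (hjall i).lt_of_ne fun h => not_le.2 hi ?_
    exact le_max' _ _ (mem_filter.2 ⟨hbig i (by rw [h]; exact hjall i0), h⟩)
  by_contra hinf
  obtain ⟨Z, hZ, hcard⟩ := (Set.Infinite.exists_subset_card_eq hinf (N + 1))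
  set B := max (N + 1) (Z.sup id + 1)
  set G : ℚ_[p][X] := ∑ i ∈ range B, C (a i) * (remPoch Z i).map (Int.castRingHom _) with hG
  have hdeg : G.degree < (Z.card : ℕ) := by
    refine (degree_sum_le _ _).trans_lt ((Finset.sup_lt_iff (WithBot.bot_lt_coe _)).2 fun i _ => ?_)
    refine ((degree_mul_le _ _).trans ?_).trans_lt (degree_remPoch_lt Z i)
    exact (add_le_add degree_C_le degree_map_le).trans_eq (zero_add _)
  have hev : ∀ m ∈ Z, G.eval (m : ℚ_[p]) = 0 := fun m hm => by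
    have h0 : u m = 0 := hZ hm
    have hmB : m + 1 ≤ B :=
      (Nat.succ_le_succ (le_sup (f := id) hm)).trans (le_max_right _ _)
    have hterm : ∀ i, ((m.choose i : ℤ_[p]) * ((p : ℤ_[p]) ^ i * b i) : ℤ_[p]) =
        (a i * (((descPochhammer ℤ i).eval (m : ℤ) : ℤ) : ℚ_[p]) : ℚ_[p]) := fun i => by
      rw [descPochhammer_eval_cast]
      push_cast
      rw [descPochhammer_eval_eq_descFactorial, Nat.descFactorial_eq_factorial_mul_choose,
        Nat.cast_mul, ha]
      have : (i.factorial : ℚ_[p]) ≠ 0 := Nat.cast_ne_zero.2 i.factorial_ne_zero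
      field_simp
    have h1 := congrArg (fun z : ℤ_[p] => (z : ℚ_[p])) (hu m)
    simp only [h0, PadicInt.coe_zero, PadicInt.coe_sum, hterm] at h1
    rw [hG, eval_finsetSum, h1]
    rw [← Finset.sum_subset (range_mono hmB) fun i _ hi => ?_]
    · refine sum_congr rfl fun i _ => ?_
      rw [eval_mul, eval_C, ← Int.cast_natCast (R := ℚ_[p]) m, eval_intCast_map,
        Int.cast_id, eval_remPoch hm, eq_intCast]
    · have hlt : m < i := Nat.lt_of_not_le fun h => hi (mem_range.2 (Nat.lt_succ_of_le h))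
      rw [eval_mul, ← Int.cast_natCast (R := ℚ_[p]) m, eval_intCast_map, Int.cast_id,
        eval_remPoch hm,
        descPochhammer_eval_eq_descFactorial, Nat.descFactorial_of_lt hlt]
      simp
  have hG0 : G = 0 := eq_zero_of_degree_lt_of_eval_index_eq_zero Z
    (fun x _ y _ h => Nat.cast_injective h) hdeg hev
  have hsum : ∑ i ∈ range B, a i * (((remPoch Z i).coeff N : ℤ) : ℚ_[p]) = 0 := by
    have := congrArg (fun F => coeff F N) hG0
    simpa [hG, coeff_C_mul] using this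
  have hNB : N ∈ range B := mem_range.2 (Nat.lt_of_succ_le (le_max_left _ _))
  rw [← add_sum_erase _ _ hNB, remPoch_of_lt (by omega)] at hsum
  have hlead : (descPochhammer ℤ N).coeff N = 1 := by
    conv_lhs => arg 2; rw [← descPochhammer_natDegree (R := ℤ) N]
    exact monic_descPochhammer ℤ N
  rw [hlead, Int.cast_one, mul_one, add_eq_zero_iff_eq_neg] at hsum
  have hNpos : 0 < ‖a N‖ := (norm_pos_iff.2 ha0).trans_le ((hjall i0).trans hN.2.ge)
  have hlt : ‖∑ i ∈ (range B).erase N, a i * (((remPoch Z i).coeff N : ℤ) : ℚ_[p])‖ < ‖a N‖ := by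
    refine Finset.sum_induction _ (fun z => ‖z‖ < ‖a N‖)
      (fun y z hy hz => (Padic.nonarchimedean y z).trans_lt (max_lt hy hz))
      (by rwa [norm_zero]) fun i hi => ?_
    rw [norm_mul]
    rcases lt_or_gt_of_ne (ne_of_mem_erase hi) with h | h
    · rw [remPoch_of_lt (by omega), coeff_eq_zero_of_natDegree_lt (by
        rwa [descPochhammer_natDegree]), Int.cast_zero, norm_zero, mul_zero]
      exact hNpos
    · exact (mul_le_of_le_one_right (norm_nonneg _) (norm_intCast_le _)).trans_lt (hlast i h)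
  rw [hsum, norm_neg] at hNpos
  rw [hsum, norm_neg] at hlt
  exact lt_irrefl _ hlt

/-- **Periodic zeros** of `n ↦ c Aⁿ v` for `A` invertible modulo `p`. -/
theorem periodic_zeros {k : ℕ} (hp2 : p ≠ 2) (A : Matrix (Fin k) (Fin k) ℤ_[p])
    (hA : IsUnit (A.map PadicInt.toZMod)) (c v : Fin k → ℤ_[p]) :
    ∃ N M : ℕ, 0 < N ∧ ∀ n, M ≤ n →
      (c ⬝ᵥ (A ^ n *ᵥ v) = 0 ↔ c ⬝ᵥ (A ^ (n + N) *ᵥ v) = 0) := by
  classical
  obtain ⟨U, hU⟩ := hA
  set N := orderOf U
  have hN : 0 < N := orderOf_pos U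
  have hred : (A ^ N).map PadicInt.toZMod = 1 := by
    have := congrArg Units.val (pow_orderOf_eq_one U)
    rwa [Units.val_pow_eq_pow_val, hU, Units.val_one,
      ← RingHom.mapMatrix_apply, ← map_pow, RingHom.mapMatrix_apply] at this
  have hdvd : ∀ i j, ∃ B : ℤ_[p], (A ^ N - 1) i j = p * B := fun i j => by
    have : (A ^ N - 1) i j ∈ RingHom.ker (PadicInt.toZMod (p := p)) := by
      have h1 := congrArg (fun Q => Q i j) hred
      simp only [Matrix.map_apply] at h1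
      rw [RingHom.mem_ker, Matrix.sub_apply, map_sub, h1]
      by_cases h : i = j <;> simp [Matrix.one_apply, h]
    rw [PadicInt.ker_toZMod, PadicInt.maximalIdeal_eq_span_p, Ideal.mem_span_singleton] at this
    exact this
  choose B hB using hdvd
  have hAN : A ^ N = 1 + (p : ℤ_[p]) • Matrix.of B := by
    ext i j
    rw [Matrix.add_apply, Matrix.smul_apply, of_apply, smul_eq_mul, ← hB, Matrix.sub_apply]
    ring
  have hclass : ∀ r, {m | c ⬝ᵥ (A ^ (r + N * m) *ᵥ v) = 0}.Finite ∨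
      ∀ m, c ⬝ᵥ (A ^ (r + N * m) *ᵥ v) = 0 := fun r => by
    set b : ℕ → ℤ_[p] := fun i => c ⬝ᵥ ((A ^ r * Matrix.of B ^ i) *ᵥ v) with hb
    have hu : ∀ m, c ⬝ᵥ (A ^ (r + N * m) *ᵥ v) =
        ∑ i ∈ range (m + 1), (m.choose i : ℤ_[p]) * ((p : ℤ_[p]) ^ i * b i) := fun m => by
      rw [pow_add, pow_mul, hAN, add_comm 1, (Commute.one_right _).add_pow, mul_sum,
        Matrix.sum_mulVec, dotProduct_sum]
      refine sum_congr rfl fun i _ => ?_
      rw [one_pow, mul_one, smul_pow, ← nsmul_eq_mul', ← Nat.cast_smul_eq_nsmul ℤ_[p],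
        Matrix.mul_smul, Matrix.mul_smul, Matrix.smul_mulVec, Matrix.smul_mulVec,
        dotProduct_smul, dotProduct_smul, smul_eq_mul, smul_eq_mul]
    by_cases h : ∃ i, b i ≠ 0
    · exact Or.inl (finite_zeros hp2 hu h)
    · push Not at h
      exact Or.inr fun m => by rw [hu]; simp [h]
  choose bound hbound using fun r => show ∃ M, (∀ m, M ≤ m → c ⬝ᵥ (A ^ (r + N * m) *ᵥ v) ≠ 0) ∨
      ∀ m, c ⬝ᵥ (A ^ (r + N * m) *ᵥ v) = 0 from (hclass r).elim
    (fun h => ⟨h.toFinset.sup id + 1, Or.inl fun m hm h0 => absurd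
      (le_sup (f := id) (h.mem_toFinset.2 h0)) (not_le.2 hm)⟩) fun h => ⟨0, Or.inr h⟩
  refine ⟨N, N * ((range N).sup bound + 1), hN, fun n hn => ?_⟩
  have hr : n % N < N := Nat.mod_lt _ hN
  have hm : bound (n % N) ≤ n / N := ((le_sup (mem_range.2 hr)).trans (Nat.le_succ _)).trans
    ((Nat.le_div_iff_mul_le hN).2 (by rw [mul_comm]; exact hn))
  conv_lhs => rw [← Nat.mod_add_div n N]
  conv_rhs => rw [← Nat.mod_add_div n N, add_assoc, ← Nat.mul_succ]
  rcases hbound (n % N) with h | h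
  · exact iff_of_false (h _ hm) (h _ (hm.trans (Nat.le_succ _)))
  · exact iff_of_true (h _) (h _)

end FA.SkolemMahlerLech
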