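import Fermat.Agent.SkolemMahlerLech.Embedding
import Fermat.Agent.SkolemMahlerLech.PadicZeros
import Mathlib.Algebra.LinearRecurrence
import Mathlib.LinearAlgebra.Matrix.Charpoly.Coeff

/-!
# The theorem of Skolem, Mahler and Lech

Over a field of characteristic zero the zeros of a linear recurrence are periodic from some point
on: shift until the last coefficient is not `0`, embed the coefficients, its inverse and the first
values in `ℤ_p` for an odd `p`, and use the periodicity for the companion matrix.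
-/

set_option autoImplicit false
set_option linter.style.haveILetI false

noncomputable section

open Finset Matrix

namespace FA.SkolemMahlerLech

/-- The companion matrix. -/
def companion {R : Type*} [Zero R] [One R] {k : ℕ} (c : Fin k → R) : Matrix (Fin k) (Fin k) R :=
  fun i j => if h : (i : ℕ) + 1 < k then (if j = ⟨(i : ℕ) + 1, h⟩ then 1 else 0) else c j

theorem companion_mulVec {R : Type*} [CommRing R] {k : ℕ} (c : Fin k → R) (x : Fin k → R)
    (i : Fin k) : (companion c *ᵥ x) i =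
      if h : (i : ℕ) + 1 < k then x ⟨(i : ℕ) + 1, h⟩ else ∑ j, c j * x j := by
  unfold companion mulVec dotProduct
  by_cases h : (i : ℕ) + 1 < k
  · simp [h]
  · simp [h]

theorem isUnit_companion {F : Type*} [Field F] {k : ℕ} (c : Fin (k + 1) → F) (hc : c 0 ≠ 0) :
    IsUnit (companion c) := by
  rw [← mulVec_injective_iff_isUnit]
  refine (injective_iff_map_eq_zero (companion c).mulVecLin).2 fun x hx => ?_
  have hx' : ∀ i, (companion c *ᵥ x) i = 0 := fun i => congrFun hx i
  have hsucc : ∀ j : Fin (k + 1), j ≠ 0 → x j = 0 := fun j hj => by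
    have hj' : 0 < (j : ℕ) := Nat.pos_of_ne_zero fun e => hj (Fin.ext e)
    have := hx' ⟨(j : ℕ) - 1, by omega⟩
    rw [companion_mulVec, dif_pos (show (j : ℕ) - 1 + 1 < k + 1 by omega)] at this
    rw [← this]
    congr 1
    exact Fin.ext (by show (j : ℕ) = (j : ℕ) - 1 + 1; omega)
  funext j
  rcases eq_or_ne j 0 with rfl | hj
  · have := hx' (Fin.last k)
    rw [companion_mulVec, dif_neg (by simp), Fintype.sum_eq_single 0 fun i hi => by
      rw [hsucc i hi, mul_zero]] at this
    exact (mul_eq_zero.1 this).resolve_left hc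
  · exact hsucc j hj

/-- Recurrences over `ℤ_p` with the last coefficient a unit. -/
theorem periodic_padic {p : ℕ} [Fact p.Prime] (hp2 : p ≠ 2) {k : ℕ} (c : Fin (k + 1) → ℤ_[p])
    (hc : IsUnit (c 0)) (w : ℕ → ℤ_[p])
    (hw : ∀ n, w (n + (k + 1)) = ∑ i, c i * w (n + i)) :
    ∃ N M : ℕ, 0 < N ∧ ∀ n, M ≤ n → (w n = 0 ↔ w (n + N) = 0) := by
  classical
  have hA : (companion c).map PadicInt.toZMod = companion fun j => PadicInt.toZMod (c j) := by
    ext i j
    rw [Matrix.map_apply]
    unfold companion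
    by_cases h : (i : ℕ) + 1 < k + 1
    · simp only [dif_pos h]
      split_ifs <;> simp
    · simp [h]
  have hpow : ∀ n, companion c ^ n *ᵥ (fun i : Fin (k + 1) => w i) =
      fun i : Fin (k + 1) => w (n + i) := by
    intro n
    induction n with
    | zero => simp
    | succ n ih =>
      rw [pow_succ', ← mulVec_mulVec, ih]
      funext i
      rw [companion_mulVec]
      by_cases h : (i : ℕ) + 1 < k + 1
      · rw [dif_pos h]
        congr 1
        show n + ((i : ℕ) + 1) = n + 1 + i
        omega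
      · rw [dif_neg h, show n + 1 + (i : ℕ) = n + (k + 1) by omega, hw n]
  obtain ⟨N, M, hN, hM⟩ := periodic_zeros hp2 (companion c)
    (hA ▸ isUnit_companion _ (hc.map PadicInt.toZMod).ne_zero) (Pi.single 0 1)
    (fun i : Fin (k + 1) => w i)
  refine ⟨N, M, hN, fun n hn => ?_⟩
  have h := hM n hn
  rwa [hpow, hpow, single_dotProduct, single_dotProduct, one_mul, one_mul, Fin.val_zero,
    add_zero, add_zero] at h

/-- A `p`-adic number of absolute value at most `1` as an integer. -/
def toPadicInt {p : ℕ} [Fact p.Prime] (x : ℚ_[p]) (h : ‖x‖ ≤ 1) : ℤ_[p] := ⟨x, h⟩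

@[simp] theorem coe_toPadicInt {p : ℕ} [Fact p.Prime] (x : ℚ_[p]) (h : ‖x‖ ≤ 1) :
    (toPadicInt x h : ℚ_[p]) = x := rfl

/-- **Skolem, Mahler and Lech**. -/
theorem periodic_field {K : Type*} [Field K] [CharZero K] :
    ∀ (k : ℕ) (c : Fin k → K) (u : ℕ → K), (∀ n, u (n + k) = ∑ i, c i * u (n + i)) →
      ∃ N M : ℕ, 0 < N ∧ ∀ n, M ≤ n → (u n = 0 ↔ u (n + N) = 0) := by
  classical
  intro k
  induction k with
  | zero =>
    intro c u hu
    have h0 : ∀ n, u n = 0 := fun n => by simpa using hu n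
    exact ⟨1, 0, one_pos, fun n _ => by simp [h0]⟩
  | succ k ih =>
    intro c u hu
    rcases eq_or_ne (c 0) 0 with hc | hc
    · obtain ⟨N, M, hN, hM⟩ := ih (fun i => c i.succ) (fun n => u (n + 1)) fun n => by
        show u (n + k + 1) = _
        rw [add_assoc, hu n, Fin.sum_univ_succ, hc, zero_mul, zero_add]
        exact sum_congr rfl fun i _ => by rw [Fin.val_succ]; rfl
      refine ⟨N, M + 1, hN, fun n hn => ?_⟩
      have := hM (n - 1) (by omega)
      rwa [show n - 1 + 1 = n by omega, show n - 1 + N + 1 = n + N by omega] at this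
    set S : Finset K := insert (c 0)⁻¹ (univ.image c ∪ (range (k + 1)).image u)
    obtain ⟨p, hp, hp2, L, φ, hS⟩ := exists_padic_embedding S
    haveI := hp
    have hc' : ∀ i, ∃ h : c i ∈ L, ‖φ ⟨c i, h⟩‖ ≤ 1 := fun i => hS _
      (mem_insert_of_mem (mem_union_left _ (mem_image_of_mem _ (mem_univ _))))
    choose hcL hcn using hc'
    have hsum : ∀ n, (∀ i : Fin (k + 1), ∃ h : u (n + i) ∈ L, ‖φ ⟨_, h⟩‖ ≤ 1) →
        ∃ h : u (n + (k + 1)) ∈ L, ‖φ ⟨_, h⟩‖ ≤ 1 := fun n hh => by
      choose hm hn using hh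
      have e : u (n + (k + 1)) = ((∑ i, (⟨c i, hcL i⟩ : L) * ⟨_, hm i⟩ : L) : K) := by
        rw [AddSubmonoidClass.coe_finsetSum, hu n]
        rfl
      refine ⟨e ▸ SetLike.coe_mem _, ?_⟩
      rw [show (⟨u (n + (k + 1)), e ▸ SetLike.coe_mem _⟩ : L) =
        ∑ i, (⟨c i, hcL i⟩ : L) * ⟨_, hm i⟩ from Subtype.ext e, map_sum]
      refine Finset.sum_induction _ (fun z => ‖z‖ ≤ 1)
        (fun y z hy hz => (Padic.nonarchimedean y z).trans (max_le hy hz))
        (by rw [norm_zero]; exact zero_le_one) fun i _ => ?_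
      rw [map_mul, norm_mul]
      exact mul_le_one₀ (hcn i) (norm_nonneg _) (hn i)
    have hu' : ∀ n, ∃ h : u n ∈ L, ‖φ ⟨u n, h⟩‖ ≤ 1 := fun n => by
      induction n using Nat.strong_induction_on with
      | _ n ihn =>
        rcases lt_or_ge n (k + 1) with h | h
        · exact hS _ (mem_insert_of_mem (mem_union_right _ (mem_image_of_mem _ (mem_range.2 h))))
        · obtain ⟨m, rfl⟩ := Nat.exists_eq_add_of_le' h
          exact hsum m fun i => ihn _ (by omega)
    choose huL hun using hu'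
    have hunit : IsUnit (toPadicInt (φ ⟨c 0, hcL 0⟩) (hcn 0)) := by
      obtain ⟨hiL, hin⟩ := hS (c 0)⁻¹ (mem_insert_self _ _)
      refine IsUnit.of_mul_eq_one (toPadicInt (φ ⟨_, hiL⟩) hin) (Subtype.ext ?_)
      show φ ⟨c 0, hcL 0⟩ * φ ⟨(c 0)⁻¹, hiL⟩ = 1
      rw [← map_mul, ← map_one φ]
      exact congrArg φ (Subtype.ext (mul_inv_cancel₀ hc))
    obtain ⟨N, M, hN, hM⟩ := periodic_padic hp2 (fun i => toPadicInt (φ ⟨c i, hcL i⟩) (hcn i)) hunit
      (fun n => toPadicInt (φ ⟨u n, huL n⟩) (hun n)) fun n => Subtype.ext (by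
        show φ ⟨u (n + (k + 1)), _⟩ = _
        rw [PadicInt.coe_sum]
        simp only [PadicInt.coe_mul, coe_toPadicInt]
        rw [← Finset.sum_congr rfl fun i _ => (map_mul φ ⟨c i, hcL i⟩ ⟨u (n + i), huL _⟩),
          ← map_sum]
        refine congrArg φ (Subtype.ext ?_)
        rw [AddSubmonoidClass.coe_finsetSum]
        exact hu n)
    have hzero : ∀ n, toPadicInt (φ ⟨u n, huL n⟩) (hun n) = 0 ↔ u n = 0 := fun n => by
      rw [← PadicInt.coe_eq_zero, coe_toPadicInt, map_eq_zero]
      exact Subtype.ext_iff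
    refine ⟨N, M, hN, fun n hn => ?_⟩
    rw [← hzero, ← hzero]
    exact hM n hn

end FA.SkolemMahlerLech
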